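import Mathlib

set_option autoImplicit false

namespace Fermat.Agent.S57

section descent

variable {A R N M : Type} [CommRing A] [CommRing R] [AddCommGroup N] [Module A N]
  [AddCommGroup M] [Module R M]

lemma repr_mem_of_mem_smul_top {ι : Type*} (e : Module.Basis ι A N) (𝔞 : Ideal A) (x : N)
    (hx : x ∈ 𝔞 • (⊤ : Submodule A N)) (i : ι) : e.repr x i ∈ 𝔞 := by
  refine Submodule.smul_induction_on (p := fun x => e.repr x i ∈ 𝔞) hx ?_ ?_
  · intro a ha n _
    simpa using 𝔞.mul_mem_right _ ha
  · intro x y hx hy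
    simpa using 𝔞.add_mem hx hy

theorem descent [Nontrivial M] [Module.Free A N] (ψ : A →+* R) (hψ : Function.Surjective ψ)
    (π : N →+ M) (hπ : ∀ (f : A) (x : N), π (f • x) = ψ f • π x) (hπs : Function.Surjective π)
    (𝔞 : Ideal A) (h𝔞 : 𝔞 ≤ RingHom.ker ψ)
    (hker : ∀ x : N, π x = 0 ↔ x ∈ 𝔞 • (⊤ : Submodule A N)) :
    Module.Free R M ∧ Module.annihilator R M = ⊥ ∧ RingHom.ker ψ = 𝔞 := by
  classical
  let e := Module.Free.chooseBasis A N
  have hN : Nontrivial N := by
    by_contra h
    rw [not_nontrivial_iff_subsingleton] at h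
    obtain ⟨m₁, m₂, hm⟩ := exists_pair_ne M
    obtain ⟨x₁, rfl⟩ := hπs m₁
    obtain ⟨x₂, rfl⟩ := hπs m₂
    exact hm (by rw [Subsingleton.elim x₁ x₂])
  have hli : LinearIndependent R (fun i => π (e i)) := by
    rw [linearIndependent_iff']
    intro s g hg i hi
    choose f hf using hψ
    have h1 : π (∑ j ∈ s, f (g j) • e j) = 0 := by
      rw [map_sum, ← hg]
      refine Finset.sum_congr rfl fun j _ => ?_
      rw [hπ, hf]
    have h2 := repr_mem_of_mem_smul_top e 𝔞 _ ((hker _).mp h1) i
    have h3 : e.repr (∑ j ∈ s, f (g j) • e j) i = f (g i) := by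
      simp [Finsupp.single_apply, hi]
    rw [h3] at h2
    have h4 := h𝔞 h2
    rw [RingHom.mem_ker, hf] at h4
    exact h4
  have hsp : ⊤ ≤ Submodule.span R (Set.range fun i => π (e i)) := by
    intro m _
    obtain ⟨x, rfl⟩ := hπs m
    have hx : x ∈ Submodule.span A (Set.range e) := by rw [e.span_eq]; trivial
    induction hx using Submodule.span_induction with
    | mem x hx =>
      obtain ⟨i, rfl⟩ := hx
      exact Submodule.subset_span ⟨i, rfl⟩
    | zero => simp
    | add x y _ _ hx hy => rw [map_add]; exact Submodule.add_mem _ (hx trivial) (hy trivial)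
    | smul a x _ hx => rw [hπ]; exact Submodule.smul_mem _ _ (hx trivial)
  have hfree : Module.Free R M := Module.Free.of_basis (Module.Basis.mk hli hsp)
  refine ⟨hfree, ?_, le_antisymm ?_ h𝔞⟩
  · exact Module.annihilator_eq_bot.mpr inferInstance
  · intro f hf
    obtain ⟨i⟩ : Nonempty (Module.Free.ChooseBasisIndex A N) := e.index_nonempty
    have h1 : π (f • e i) = 0 := by rw [hπ, (RingHom.mem_ker).mp hf, zero_smul]
    have h2 := repr_mem_of_mem_smul_top e 𝔞 _ ((hker _).mp h1) i
    simpa using h2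

end descent

end Fermat.Agent.S57
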