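import Mathlib

set_option autoImplicit false

open RingTheory.Sequence Pointwise

namespace Fermat.Agent.S57

section general

variable {P P' : Type*} [CommRing P] [CommRing P']

lemma smul_top_eq_ker (q : P →+* P') (x : P)
    (hker : RingHom.ker q = Ideal.span {x}) :
    (x • (⊤ : Submodule P P)) = LinearMap.ker q.toSemilinearMap := by
  ext y
  rw [Submodule.mem_smul_pointwise_iff_exists, LinearMap.mem_ker]
  have : q.toSemilinearMap y = 0 ↔ y ∈ RingHom.ker q := Iff.rfl
  rw [this, hker, Ideal.mem_span_singleton]
  constructor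
  · rintro ⟨z, -, rfl⟩
    exact ⟨z, rfl⟩
  · rintro ⟨z, rfl⟩
    exact ⟨z, trivial, rfl⟩

/-- the additive equivalence `P/(x) ≃ P'` induced by a surjection with kernel `(x)`. -/
noncomputable def quotAddEquiv (q : P →+* P') (hq : Function.Surjective q) (x : P)
    (hker : RingHom.ker q = Ideal.span {x}) : QuotSMulTop x P ≃+ P' :=
  AddEquiv.ofBijective
    ((Submodule.liftQ (x • (⊤ : Submodule P P)) q.toSemilinearMap
      (smul_top_eq_ker q x hker).le).toAddMonoidHom) ⟨by
        have := Submodule.ker_liftQ_eq_bot (x • (⊤ : Submodule P P)) q.toSemilinearMap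
          (smul_top_eq_ker q x hker).le (smul_top_eq_ker q x hker).ge
        exact LinearMap.ker_eq_bot.mp this, by
        intro y
        obtain ⟨z, rfl⟩ := hq y
        exact ⟨Submodule.Quotient.mk z, rfl⟩⟩

lemma quotAddEquiv_smul (q : P →+* P') (hq : Function.Surjective q) (x : P)
    (hker : RingHom.ker q = Ideal.span {x}) (a : P) (y : QuotSMulTop x P) :
    quotAddEquiv q hq x hker (a • y) = q a • quotAddEquiv q hq x hker y := by
  exact (Submodule.liftQ (x • (⊤ : Submodule P P)) q.toSemilinearMap
      (smul_top_eq_ker q x hker).le).map_smulₛₗ a y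

lemma isWeaklyRegular_quot_iff (q : P →+* P') (hq : Function.Surjective q) (x : P)
    (hker : RingHom.ker q = Ideal.span {x}) (as : List P) :
    IsWeaklyRegular (QuotSMulTop x P) as ↔ IsWeaklyRegular P' (as.map q) := by
  apply AddEquiv.isWeaklyRegular_congr (e := quotAddEquiv q hq x hker)
  rw [List.forall₂_map_right_iff, List.forall₂_same]
  intro a _ y
  exact quotAddEquiv_smul q hq x hker a y

lemma ofList_cons_eq_comap (q : P →+* P') (hq : Function.Surjective q) (x : P)
    (hker : RingHom.ker q = Ideal.span {x}) (as : List P) :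
    Ideal.ofList (x :: as) = (Ideal.ofList (as.map q)).comap q := by
  rw [← Ideal.map_ofList, Ideal.comap_map_of_surjective q hq, Ideal.ofList_cons,
    ← RingHom.ker_eq_comap_bot, hker, sup_comm]

end general

section mv

variable (B : Type*) [CommRing B]

/-- kill the first variable -/
noncomputable def killX0 (r : ℕ) : MvPowerSeries (Fin (r + 1)) B →+* MvPowerSeries (Fin r) B :=
  (PowerSeries.constantCoeff (R := MvPowerSeries (Fin r) B)).comp
    (MvPowerSeries.finSuccEquiv B r).toRingEquiv.toRingHom

lemma killX0_X_zero (r : ℕ) : killX0 B r (MvPowerSeries.X 0) = 0 := by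
  simp [killX0]

lemma killX0_X_succ (r : ℕ) (i : Fin r) :
    killX0 B r (MvPowerSeries.X i.succ) = MvPowerSeries.X i := by
  simp [killX0]

lemma killX0_C (r : ℕ) (b : B) :
    killX0 B r (MvPowerSeries.C b) = MvPowerSeries.C b := by
  simp [killX0]

lemma killX0_surjective (r : ℕ) : Function.Surjective (killX0 B r) := by
  intro y
  refine ⟨(MvPowerSeries.finSuccEquiv B r).symm (PowerSeries.C y), ?_⟩
  simp [killX0]

lemma ker_killX0 (r : ℕ) : RingHom.ker (killX0 B r) = Ideal.span {MvPowerSeries.X 0} := by
  ext f
  rw [RingHom.mem_ker, Ideal.mem_span_singleton]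
  have h1 : killX0 B r f = PowerSeries.constantCoeff (MvPowerSeries.finSuccEquiv B r f) := rfl
  rw [h1, ← PowerSeries.X_dvd_iff, ← MvPowerSeries.finSuccEquiv_X_zero]
  exact (map_dvd_iff (MvPowerSeries.finSuccEquiv B r))

lemma constantCoeff_killX0 (r : ℕ) (f : MvPowerSeries (Fin (r + 1)) B) :
    MvPowerSeries.constantCoeff (killX0 B r f) = MvPowerSeries.constantCoeff f := by
  have h1 : killX0 B r f = PowerSeries.coeff 0 (MvPowerSeries.finSuccEquiv B r f) := by
    simp [killX0]
  rw [h1, ← MvPowerSeries.coeff_zero_eq_constantCoeff_apply, MvPowerSeries.coeff_coeff_finSuccEquiv]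
  simp

/-- the list `X_0, ..., X_{r-1}, C b_1, ..., C b_m`. -/
noncomputable def varList (r : ℕ) (bs : List B) : List (MvPowerSeries (Fin r) B) :=
  List.ofFn (fun i : Fin r => (MvPowerSeries.X i : MvPowerSeries (Fin r) B)) ++
    bs.map (MvPowerSeries.C (σ := Fin r) (R := B))

lemma varList_succ (r : ℕ) (bs : List B) :
    varList B (r + 1) bs = MvPowerSeries.X 0 ::
      (List.ofFn (fun i : Fin r => (MvPowerSeries.X i.succ : MvPowerSeries (Fin (r + 1)) B)) ++
        bs.map (MvPowerSeries.C (σ := Fin (r + 1)) (R := B))) := by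
  simp [varList, List.ofFn_succ]

lemma map_killX0_tail (r : ℕ) (bs : List B) :
    (List.ofFn (fun i : Fin r => (MvPowerSeries.X i.succ : MvPowerSeries (Fin (r + 1)) B)) ++
        bs.map (MvPowerSeries.C (σ := Fin (r + 1)) (R := B))).map (killX0 B r) = varList B r bs := by
  simp [varList, List.map_ofFn, Function.comp_def, killX0_X_succ, killX0_C]

theorem varList_spec (r : ℕ) (bs : List B) (hbs : IsWeaklyRegular B bs) :
    IsWeaklyRegular (MvPowerSeries (Fin r) B) (varList B r bs) ∧
      Ideal.ofList (varList B r bs) =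
        (Ideal.ofList bs).comap (MvPowerSeries.constantCoeff (σ := Fin r) (R := B)) := by
  induction r with
  | zero =>
    have hl : varList B 0 bs = bs.map (MvPowerSeries.C (σ := Fin 0) (R := B)) := by
      simp [varList]
    rw [hl]
    constructor
    · refine (AddEquiv.isWeaklyRegular_congr
        (e := (MvPowerSeries.isEmptyEquiv (Fin 0) B).toAddEquiv) (bs := bs) ?_).mpr hbs
      rw [List.forall₂_map_left_iff, List.forall₂_same]
      intro a _ y
      simp
    · rw [← Ideal.map_ofList]
      have h1 : (MvPowerSeries.C (σ := Fin 0) (R := B)) =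
          ((MvPowerSeries.isEmptyEquiv (Fin 0) B).toRingEquiv.symm : B →+* _) := by
        ext1 b
        rfl
      have h2 : (MvPowerSeries.constantCoeff (σ := Fin 0) (R := B)) =
          ((MvPowerSeries.isEmptyEquiv (Fin 0) B).toRingEquiv : _ →+* B) := by
        ext1 b
        rfl
      rw [h1, h2]
      exact Ideal.map_symm _
  | succ r ih =>
    rw [varList_succ]
    constructor
    · rw [isWeaklyRegular_cons_iff,
        isWeaklyRegular_quot_iff (killX0 B r) (killX0_surjective B r) _ (ker_killX0 B r),
        map_killX0_tail]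
      refine ⟨?_, ih.1⟩
      exact Module.Flat.isSMulRegular_of_nonZeroDivisors MvPowerSeries.X_mem_nonzeroDivisors
    · rw [ofList_cons_eq_comap (killX0 B r) (killX0_surjective B r) _ (ker_killX0 B r),
        map_killX0_tail, ih.2, Ideal.comap_comap]
      congr 1
      ext f
      exact constantCoeff_killX0 B r f

end mv

end Fermat.Agent.S57
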