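import Fermat.Agent.S57.Free

set_option autoImplicit false
set_option linter.style.haveILetI false

open CategoryTheory RingTheory.Sequence IsLocalRing

namespace Fermat.Agent.S57

section via

variable {S A N : Type} [CommRing S] [CommRing A] [AddCommGroup N] [Module A N]
  (φ : S →+* A) {d : ℕ} (b : Fin d → N)

include φ b in
lemma finite_of_span (hspan : ∀ x : N, ∃ c : Fin d → S, x = ∑ i, φ (c i) • b i) :
    Module.Finite A N := by
  classical
  refine ⟨⟨Finset.univ.image b, ?_⟩⟩
  rw [eq_top_iff]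
  intro x _
  obtain ⟨c, rfl⟩ := hspan x
  refine Submodule.sum_mem _ fun i _ => Submodule.smul_mem _ _ (Submodule.subset_span ?_)
  simp

lemma isWeaklyRegular_via (hspan : ∀ x : N, ∃ c : Fin d → S, x = ∑ i, φ (c i) • b i)
    (hrel : ∀ c : Fin d → S, ∑ i, φ (c i) • b i = 0 → ∀ i, c i = 0)
    (rs : List S) (hrs : IsWeaklyRegular S rs) : IsWeaklyRegular N (rs.map φ) := by
  letI : Algebra S A := φ.toAlgebra
  letI : Module S N := Module.compHom N φ
  haveI : IsScalarTower S A N := ⟨fun s a n => by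
    change (φ s * a) • n = φ s • (a • n)
    rw [mul_smul]⟩
  have hsm : ∀ (s : S) (n : N), s • n = φ s • n := fun _ _ => rfl
  have hli : LinearIndependent S b := by
    rw [Fintype.linearIndependent_iff]
    intro c hc
    exact hrel c (by simpa [hsm] using hc)
  have hsp : ⊤ ≤ Submodule.span S (Set.range b) := by
    intro x _
    obtain ⟨c, rfl⟩ := hspan x
    refine Submodule.sum_mem _ fun i _ => ?_
    rw [← hsm]
    exact Submodule.smul_mem _ _ (Submodule.subset_span ⟨i, rfl⟩)
  haveI : Module.Free S N := Module.Free.of_basis (Module.Basis.mk hli hsp)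
  have h1 : IsWeaklyRegular (TensorProduct S N S) rs := hrs.isWeaklyRegular_lTensor
  have h2 : IsWeaklyRegular N rs := ((TensorProduct.rid S N).isWeaklyRegular_congr rs).mp h1
  exact (isWeaklyRegular_map_algebraMap_iff A N rs).mpr h2

lemma isFiniteLength_via [IsLocalRing S]
    (hspan : ∀ x : N, ∃ c : Fin d → S, x = ∑ i, φ (c i) • b i)
    (rs : List S) (hmax : Ideal.ofList rs = maximalIdeal S) :
    IsFiniteLength A (N ⧸ Ideal.ofList (rs.map φ) • (⊤ : Submodule A N)) := by
  letI : Algebra S A := φ.toAlgebra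
  letI : Module S N := Module.compHom N φ
  haveI : IsScalarTower S A N := ⟨fun s a n => by
    change (φ s * a) • n = φ s • (a • n)
    rw [mul_smul]⟩
  have hsm : ∀ (s : S) (n : N), s • n = φ s • n := fun _ _ => rfl
  set Q := N ⧸ Ideal.ofList (rs.map φ) • (⊤ : Submodule A N) with hQ
  let mk : N →ₗ[A] Q := Submodule.mkQ _
  have hkill : ∀ (i : Fin d), (maximalIdeal S : Submodule S S) ≤
      LinearMap.ker (LinearMap.toSpanSingleton S Q (mk (b i))) := by
    intro i s hs
    rw [LinearMap.mem_ker, LinearMap.toSpanSingleton_apply]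
    have h1 : s • mk (b i) = mk (φ s • b i) := by
      rw [← hsm]; rfl
    rw [h1]
    refine (Submodule.Quotient.mk_eq_zero _).mpr (Submodule.smul_mem_smul ?_ trivial)
    rw [← Ideal.map_ofList, hmax]
    exact Ideal.mem_map_of_mem φ hs
  let g : (Fin d → S ⧸ maximalIdeal S) →ₗ[S] Q :=
    ∑ i, (Submodule.liftQ _ _ (hkill i)) ∘ₗ LinearMap.proj i
  have hg : Function.Surjective g := by
    intro x
    obtain ⟨n, rfl⟩ := Submodule.mkQ_surjective _ x
    obtain ⟨c, rfl⟩ := hspan n
    refine ⟨fun i => Ideal.Quotient.mk _ (c i), ?_⟩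
    simp only [g, LinearMap.sum_apply, LinearMap.comp_apply, LinearMap.proj_apply, map_sum]
    refine Finset.sum_congr rfl fun i _ => ?_
    change (Submodule.liftQ _ _ (hkill i)) (Submodule.Quotient.mk (c i)) = _
    rw [Submodule.liftQ_apply, LinearMap.toSpanSingleton_apply]
    rw [← hsm]; rfl
  haveI : IsSimpleModule S (S ⧸ maximalIdeal S) :=
    isSimpleModule_iff_quot_maximal.mpr ⟨_, inferInstance, ⟨LinearEquiv.refl _ _⟩⟩
  haveI hart : IsArtinian S Q := isArtinian_of_surjective _ g hg
  haveI hnoe : IsNoetherian S Q := isNoetherian_of_surjective g (LinearMap.range_eq_top.mpr hg)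
  exact isFiniteLength_iff_isNoetherian_isArtinian.mpr
    ⟨isNoetherian_of_tower S hnoe, isArtinian_of_tower S hart⟩

theorem free_via [IsLocalRing S] [IsLocalRing A] [IsNoetherianRing A]
    (hspan : ∀ x : N, ∃ c : Fin d → S, x = ∑ i, φ (c i) • b i)
    (hrel : ∀ c : Fin d → S, ∑ i, φ (c i) • b i = 0 → ∀ i, c i = 0)
    (rsS : List S) (hS : IsWeaklyRegular S rsS) (hSmax : Ideal.ofList rsS = maximalIdeal S)
    (rsA : List A) (hA : IsRegular A rsA) (hAmax : Ideal.ofList rsA = maximalIdeal A)
    (hlen : rsS.length = rsA.length) (hloc : ∀ s ∈ rsS, φ s ∈ maximalIdeal A) :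
    Module.Free A N := by
  haveI := finite_of_span φ b hspan
  refine free_of_regular_sequences rsA hA hAmax N (rsS.map φ) (by simpa using hlen)
    (isWeaklyRegular_via φ b hspan hrel rsS hS) ?_ (isFiniteLength_via φ b hspan rsS hSmax)
  intro y hy
  obtain ⟨s, hs, rfl⟩ := List.mem_map.mp hy
  exact hloc s hs

end via

end Fermat.Agent.S57
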