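import Mathlib

set_option autoImplicit false

open CategoryTheory RingTheory.Sequence IsLocalRing

namespace Fermat.Agent.S57

variable {A : Type} [CommRing A] [IsLocalRing A] [IsNoetherianRing A]

omit [IsNoetherianRing A] in
lemma hasProjectiveDimensionLT_of_isFiniteLength (n : ℕ)
    (hk : HasProjectiveDimensionLT (ModuleCat.of A (A ⧸ maximalIdeal A)) n)
    (Q : Type) [AddCommGroup Q] [Module A Q] (hQ : IsFiniteLength A Q) :
    HasProjectiveDimensionLT (ModuleCat.of A Q) n := by
  induction hQ with
  | @of_subsingleton Q _ _ _ =>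
    have h0 : Limits.IsZero (ModuleCat.of A Q) := ModuleCat.isZero_of_subsingleton _
    have := h0.hasProjectiveDimensionLT_zero
    exact hasProjectiveDimensionLT_of_ge _ 0 n (Nat.zero_le _)
  | @of_simple_quotient Q _ _ Q' hs _ ih =>
    obtain ⟨I, hI, ⟨e⟩⟩ := isSimpleModule_iff_quot_maximal.mp hs
    have hI' : I = maximalIdeal A := IsLocalRing.eq_maximalIdeal hI
    subst hI'
    have h3 : HasProjectiveDimensionLT (ModuleCat.of A (Q ⧸ Q')) n :=
      hasProjectiveDimensionLT_of_iso e.symm.toModuleIso n
    let S : ShortComplex (ModuleCat A) :=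
      ModuleCat.shortComplexOfCompEqZero Q'.subtype Q'.mkQ (by ext x; simp)
    have hS : S.ShortExact := by
      refine ModuleCat.shortComplex_shortExact S ?_ Q'.injective_subtype Q'.mkQ_surjective
      intro x
      simp [S]
    exact hS.hasProjectiveDimensionLT_X₂ n ih h3

/-- Special case of Auslander-Buchsbaum. -/
theorem free_of_regular_sequences (rs : List A) (hrs : IsRegular A rs)
    (hmax : Ideal.ofList rs = maximalIdeal A)
    (N : Type) [AddCommGroup N] [Module A N] [Module.Finite A N]
    (ys : List A) (hlen : ys.length = rs.length) (hys : IsWeaklyRegular N ys)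
    (hmem : ∀ y ∈ ys, y ∈ maximalIdeal A)
    (hfl : IsFiniteLength A (N ⧸ Ideal.ofList ys • (⊤ : Submodule A N))) :
    Module.Free A N := by
  rcases subsingleton_or_nontrivial N with hN | hN
  · infer_instance
  have h1 := ModuleCat.projectiveDimension_quotient_eq_length.{0} rs hrs
  have hk : HasProjectiveDimensionLT (ModuleCat.of A (A ⧸ maximalIdeal A)) (rs.length + 1) := by
    have h2 : projectiveDimension (ModuleCat.of A (Shrink.{0} (A ⧸ Ideal.ofList rs))) ≤ rs.length :=
      h1.le
    rw [projectiveDimension_le_iff] at h2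
    rw [← hmax]
    exact hasProjectiveDimensionLT_of_iso (Shrink.linearEquiv A (A ⧸ Ideal.ofList rs)).toModuleIso _
  have h3 := hasProjectiveDimensionLT_of_isFiniteLength _ hk _ hfl
  have h4 := ModuleCat.projectiveDimension_quotient_eq_add_length_of_isWeaklyRegular
    (ModuleCat.of A N) ys hys hmem
  have h5 : projectiveDimension (ModuleCat.of A (N ⧸ Ideal.ofList ys • (⊤ : Submodule A N)))
      ≤ rs.length := (projectiveDimension_le_iff _ _).mpr h3
  have h6 : projectiveDimension (ModuleCat.of A N) + (rs.length : WithBot ℕ∞) ≤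
      0 + (rs.length : WithBot ℕ∞) := by
    rw [zero_add, ← hlen]
    rw [← hlen] at h5
    exact h4 ▸ h5
  have h7 : projectiveDimension (ModuleCat.of A N) ≤ ((0 : ℕ) : WithBot ℕ∞) := by
    simpa using (ENat.WithBot.add_le_add_natCast_right_iff).mp h6
  rw [projectiveDimension_le_iff] at h7
  have h8 : Projective (ModuleCat.of A N) := (projective_iff_hasProjectiveDimensionLE_zero _).mpr h7
  have h9 : Module.Projective A N := (IsProjective.iff_projective _).mpr h8
  exact Module.free_of_flat_of_isLocalRing

end Fermat.Agent.S57
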